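import Fermat.Agent.TraceFormula.Unfolding
import Mathlib.Algebra.Group.Conj
import Mathlib.GroupTheory.Subgroup.Centralizer

/-!
# Collecting the terms by conjugacy classes

For `φ` continuous with compact support only finitely many `δ ∈ Γ` have a nonzero integral of
`φ (s δ s⁻¹)` over the domain of `Γ`, and those in the class of `γ` add up to the integral of
`φ (u γ u⁻¹)` over any fundamental domain of the centraliser of `γ` in `Γ`.
-/

set_option autoImplicit false
set_option linter.unusedSectionVars false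
set_option linter.style.haveILetI false

noncomputable section

open MeasureTheory MeasureTheory.Measure Topology Set Filter Function
open scoped Pointwise

namespace FA.TraceFormula

open FA.CompactQuotient

variable {G : Type*} [Group G] [TopologicalSpace G] [IsTopologicalGroup G] [T2Space G]
  [LocallyCompactSpace G] (Γ : Subgroup G) [DiscreteTopology Γ] [CompactSpace (G ⧸ Γ)]
  [MeasurableSpace G] [BorelSpace G]

/-- The contribution of one element. -/
def conjTerm (φ : G → ℂ) (δ : Γ) : ℂ :=
  ∫ s in domain Γ, φ (s * δ * s⁻¹) ∂(haar : Measure G)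

/-- The finite set of elements that can contribute. -/
def relevant {φ : G → ℂ} (hs : HasCompactSupport φ) : Finset Γ :=
  (finite_meeting Γ hs (isCompact_closure_domain Γ) (isCompact_closure_domain Γ)).toFinset

theorem apply_eq_zero_of_notMem_relevant {φ : G → ℂ} (hs : HasCompactSupport φ) {δ : Γ}
    (hδ : δ ∉ relevant Γ hs) {s : G} (hsD : s ∈ domain Γ) : φ (s * δ * s⁻¹) = 0 := by
  by_contra hne
  exact hδ ((Set.Finite.mem_toFinset _).2
    (mem_of_apply_ne Γ (subset_closure hsD) (subset_closure hsD) hne))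

theorem conjTerm_eq_zero {φ : G → ℂ} (hs : HasCompactSupport φ) {δ : Γ}
    (hδ : δ ∉ relevant Γ hs) : conjTerm Γ φ δ = 0 :=
  setIntegral_eq_zero_of_forall_eq_zero fun _ hsD => apply_eq_zero_of_notMem_relevant Γ hs hδ hsD

theorem finite_conjTerm_ne {φ : G → ℂ} (hs : HasCompactSupport φ) :
    {δ : Γ | conjTerm Γ φ δ ≠ 0}.Finite :=
  (relevant Γ hs).finite_toSet.subset fun δ hδ => by
    by_contra h
    exact hδ (conjTerm_eq_zero Γ hs h)

theorem integrableOn_conj {φ : G → ℂ} (hc : Continuous φ) (a b : G) {K : Set G} (hK : IsCompact K)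
    {A : Set G} (hA : A ⊆ K) : IntegrableOn (fun u => φ (u * a * (u * b)⁻¹)) A (haar : Measure G) :=
  ((hc.comp ((continuous_id.mul continuous_const).mul
    (continuous_id.mul continuous_const).inv)).continuousOn.integrableOn_compact hK).mono_set hA

/-- The integral of the periodised diagonal is the sum of the contributions. -/
theorem hasSum_conjTerm {φ : G → ℂ} (hc : Continuous φ) (hs : HasCompactSupport φ) :
    HasSum (conjTerm Γ φ) (∫ s in domain Γ, periodise Γ φ s s ∂(haar : Measure G)) := by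
  have e : ∫ s in domain Γ, periodise Γ φ s s ∂(haar : Measure G) =
      ∑ δ ∈ relevant Γ hs, conjTerm Γ φ δ := by
    unfold conjTerm
    rw [← integral_finsetSum _ fun δ _ => ?_]
    · refine setIntegral_congr_fun (measurableSet_domain Γ) fun s hsD => ?_
      exact finsum_eq_sum_of_support_subset _ fun δ hδ => by
        by_contra h
        exact hδ (apply_eq_zero_of_notMem_relevant Γ hs h hsD)
    · simpa [IntegrableOn] using
        integrableOn_conj (φ := φ) hc (δ : G) 1 (isCompact_closure_domain Γ) subset_closure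
  rw [e]
  exact hasSum_sum_of_ne_finset_zero fun δ hδ => conjTerm_eq_zero Γ hs hδ

/-- The centraliser of `γ` in `Γ`. -/
def centralizerIn (γ : Γ) : Subgroup G := Γ ⊓ Subgroup.centralizer {(γ : G)}

theorem mem_centralizerIn {γ : Γ} {z : G} :
    z ∈ centralizerIn Γ γ ↔ z ∈ Γ ∧ z * γ = γ * z :=
  and_congr_right fun _ => Subgroup.mem_centralizer_singleton_iff

theorem centralizerIn_one : centralizerIn Γ 1 = Γ :=
  SetLike.ext fun z => by simp [mem_centralizerIn]

theorem centralizerIn_le (γ : Γ) : centralizerIn Γ γ ≤ Γ := inf_le_left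

variable [Countable Γ]

theorem countable_centralizerIn (γ : Γ) : Countable (centralizerIn Γ γ).op :=
  haveI : Countable (centralizerIn Γ γ) :=
    (Subgroup.inclusion_injective (centralizerIn_le Γ γ)).countable
  (Subgroup.equivOp (centralizerIn Γ γ)).symm.injective.countable

/-- A conjugating element. -/
def conjugator (γ : Γ) (δ : {δ : Γ // ConjClasses.mk δ = ConjClasses.mk γ}) : Γ :=
  (isConj_iff.1 (ConjClasses.mk_eq_mk_iff_isConj.1 δ.2.symm)).choose

theorem conjugator_spec (γ : Γ) (δ : {δ : Γ // ConjClasses.mk δ = ConjClasses.mk γ}) :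
    conjugator Γ γ δ * γ * (conjugator Γ γ δ)⁻¹ = δ :=
  (isConj_iff.1 (ConjClasses.mk_eq_mk_iff_isConj.1 δ.2.symm)).choose_spec

/-- A translate of the domain for each element of the class. -/
def classPiece (γ : Γ) (δ : {δ : Γ // ConjClasses.mk δ = ConjClasses.mk γ}) : Set G :=
  (· * ((conjugator Γ γ δ : G))⁻¹) ⁻¹' domain Γ

/-- The union of the translates. -/
def classDomain (γ : Γ) : Set G := ⋃ δ, classPiece Γ γ δ

theorem measurableSet_classPiece (γ : Γ)
    (δ : {δ : Γ // ConjClasses.mk δ = ConjClasses.mk γ}) : MeasurableSet (classPiece Γ γ δ) :=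
  (measurableSet_domain Γ).preimage (measurable_mul_const _)

theorem pairwise_disjoint_classPiece (γ : Γ) :
    Pairwise (Disjoint on classPiece Γ γ) := fun δ δ' hne => by
  refine Set.disjoint_left.2 fun x hx hx' => hne ?_
  obtain ⟨γ₀, -, huniq⟩ := existsUnique_domain Γ x
  have h : (conjugator Γ γ δ)⁻¹ = (conjugator Γ γ δ')⁻¹ :=
    (huniq _ (by simpa [classPiece] using hx)).trans
      (huniq _ (by simpa [classPiece] using hx')).symm
  rw [inv_inj] at h
  refine Subtype.ext ?_
  rw [← conjugator_spec Γ γ δ, ← conjugator_spec Γ γ δ', h]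

/-- The union of the translates is a fundamental domain of the centraliser. -/
theorem isFundamentalDomain_classDomain (γ : Γ) :
    IsFundamentalDomain (centralizerIn Γ γ).op (classDomain Γ γ) (haar : Measure G) := by
  refine IsFundamentalDomain.mk'
    (MeasurableSet.iUnion fun δ => measurableSet_classPiece Γ γ δ).nullMeasurableSet fun x => ?_
  obtain ⟨γ₀, hγ₀, huniq⟩ := existsUnique_domain Γ x
  set δ₀ : {δ : Γ // ConjClasses.mk δ = ConjClasses.mk γ} :=
    ⟨γ₀⁻¹ * γ * γ₀, ConjClasses.mk_eq_mk_iff_isConj.2 (isConj_iff.2 ⟨γ₀, by group⟩)⟩ with hδ₀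
  have hz : ((γ₀ * conjugator Γ γ δ₀ : Γ) : G) ∈ centralizerIn Γ γ := by
    refine (mem_centralizerIn Γ).2 ⟨SetLike.coe_mem _, ?_⟩
    have h := conjugator_spec Γ γ δ₀
    have h' : γ₀ * conjugator Γ γ δ₀ * γ = γ * (γ₀ * conjugator Γ γ δ₀) := by
      rw [mul_inv_eq_iff_eq_mul] at h
      rw [mul_assoc, h, hδ₀]
      group
    simpa using congrArg (Subtype.val : Γ → G) h'
  refine ⟨Subgroup.equivOp _ ⟨_, hz⟩, mem_iUnion.2 ⟨δ₀, ?_⟩, fun z hmem => ?_⟩
  · show x * ((γ₀ * conjugator Γ γ δ₀ : Γ) : G) * ((conjugator Γ γ δ₀ : G))⁻¹ ∈ domain Γ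
    rw [Subgroup.coe_mul, mul_assoc, mul_inv_cancel_right]
    exact hγ₀
  · obtain ⟨y, rfl⟩ := (Subgroup.equivOp (centralizerIn Γ γ)).surjective z
    obtain ⟨δ, hδ⟩ := mem_iUnion.1 hmem
    change x * (y : G) * ((conjugator Γ γ δ : G))⁻¹ ∈ domain Γ at hδ
    obtain ⟨hyΓ, hy⟩ := (mem_centralizerIn Γ).1 y.2
    set y' : Γ := ⟨y, hyΓ⟩ with hy'
    have h0 : y' * (conjugator Γ γ δ)⁻¹ = γ₀ := huniq _ (by simpa [hy', mul_assoc] using hδ)
    have hcomm : y' * γ = γ * y' := Subtype.ext hy
    have hy0 : y' = γ₀ * conjugator Γ γ δ := by rw [← h0, inv_mul_cancel_right]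
    have hd : δ = δ₀ := by
      refine Subtype.ext ?_
      have h := conjugator_spec Γ γ δ
      rw [hy0] at hcomm
      rw [← h, hδ₀]
      show _ = γ₀⁻¹ * γ * γ₀
      rw [mul_inv_eq_iff_eq_mul]
      simp only [mul_assoc] at hcomm ⊢
      exact eq_inv_mul_iff_mul_eq.2 hcomm
    refine congrArg _ (Subtype.ext ?_)
    show (y : G) = ((γ₀ * conjugator Γ γ δ₀ : Γ) : G)
    rw [← hd, ← hy0]

/-- **One class.** On any fundamental domain of the centraliser the integral of `φ (u γ u⁻¹)` is the
sum of the contributions of the conjugates of `γ`. -/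
theorem setIntegral_centralizer {φ : G → ℂ} (hc : Continuous φ) (hs : HasCompactSupport φ) (γ : Γ)
    {E : Set G} (hE : IsFundamentalDomain (centralizerIn Γ γ).op E (haar : Measure G)) :
    IntegrableOn (fun u => φ (u * γ * u⁻¹)) E (haar : Measure G) ∧
      HasSum (fun δ : {δ : Γ // ConjClasses.mk δ = ConjClasses.mk γ} => conjTerm Γ φ δ)
        (∫ u in E, φ (u * γ * u⁻¹) ∂(haar : Measure G)) := by
  haveI := isMulRightInvariant_of_cocompact Γ
  haveI := countable_centralizerIn Γ γ
  set h : G → ℂ := fun u => φ (u * γ * u⁻¹) with hh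
  have hinv : ∀ (z : (centralizerIn Γ γ).op) (u : G), h (z • u) = h u := fun z u => by
    obtain ⟨y, rfl⟩ := (Subgroup.equivOp (centralizerIn Γ γ)).surjective z
    show φ (u * (y : G) * γ * (u * (y : G))⁻¹) = φ (u * γ * u⁻¹)
    rw [mul_assoc u, ((mem_centralizerIn Γ).1 y.2).2]
    group
  set T : Finset {δ : Γ // ConjClasses.mk δ = ConjClasses.mk γ} :=
    ((relevant Γ hs).finite_toSet.preimage Subtype.val_injective.injOn).toFinset with hT
  have hpiece : ∀ δ, IntegrableOn h (classPiece Γ γ δ) (haar : Measure G) ∧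
      ∫ u in classPiece Γ γ δ, h u ∂(haar : Measure G) = conjTerm Γ φ δ := fun δ => by
    set c : G := (conjugator Γ γ δ : G) with hcdef
    have hval : ∀ s : G, h (s * c) = φ (s * ((δ : Γ) : G) * s⁻¹) := fun s => by
      rw [← conjugator_spec Γ γ δ, Subgroup.coe_mul, Subgroup.coe_mul, Subgroup.coe_inv, ← hcdef,
        hh]
      group
    refine ⟨?_, ?_⟩
    · have h1 : classPiece Γ γ δ ⊆ (· * c) '' closure (domain Γ) := fun x hx =>
        ⟨x * c⁻¹, subset_closure hx, inv_mul_cancel_right x c⟩
      simpa [hh] using integrableOn_conj (φ := φ) hc (γ : G) 1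
        ((isCompact_closure_domain Γ).image (continuous_id.mul continuous_const)) h1
    · rw [← integral_indicator (measurableSet_classPiece Γ γ δ), conjTerm,
        ← integral_indicator (measurableSet_domain Γ),
        ← integral_mul_right_eq_self ((classPiece Γ γ δ).indicator h) c]
      refine integral_congr_ae (.of_forall fun s => ?_)
      have hiff : s * c ∈ classPiece Γ γ δ ↔ s ∈ domain Γ := by
        rw [classPiece, mem_preimage, ← hcdef, mul_inv_cancel_right]
      show (classPiece Γ γ δ).indicator h (s * c) = _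
      by_cases hsD : s ∈ domain Γ
      · rw [indicator_of_mem (hiff.2 hsD), indicator_of_mem hsD, hval]
      · rw [indicator_of_notMem (fun h' => hsD (hiff.1 h')), indicator_of_notMem hsD]
  have hsub : (⋃ δ ∈ T, classPiece Γ γ δ) ⊆ classDomain Γ γ := iUnion₂_subset fun δ _ =>
    subset_iUnion (classPiece Γ γ) δ
  have hzero : ∀ u ∈ classDomain Γ γ \ ⋃ δ ∈ T, classPiece Γ γ δ, h u = 0 := fun u hu => by
    obtain ⟨δ, hδ⟩ := mem_iUnion.1 hu.1
    have hδT : (δ : Γ) ∉ relevant Γ hs := fun hm =>
      hu.2 (mem_iUnion₂.2 ⟨δ, by simpa [hT] using hm, hδ⟩)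
    have h0 := apply_eq_zero_of_notMem_relevant Γ hs hδT hδ
    rw [← conjugator_spec Γ γ δ, Subgroup.coe_mul, Subgroup.coe_mul, Subgroup.coe_inv] at h0
    rw [hh]
    refine Eq.trans (congrArg φ ?_) h0
    group
  have hint : IntegrableOn h (classDomain Γ γ) (haar : Measure G) :=
    IntegrableOn.of_forall_sdiff_eq_zero (integrableOn_finset_iUnion.2 fun δ _ => (hpiece δ).1)
      (MeasurableSet.iUnion fun δ => measurableSet_classPiece Γ γ δ) hzero
  have hF := isFundamentalDomain_classDomain Γ γ
  refine ⟨(hE.integrableOn_iff hF hinv).2 hint, ?_⟩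
  have hm : MeasurableSet (classDomain Γ γ) :=
    MeasurableSet.iUnion fun δ => measurableSet_classPiece Γ γ δ
  rw [hE.setIntegral_eq hF hinv,
    setIntegral_eq_of_subset_of_forall_sdiff_eq_zero hm hsub hzero,
    integral_biUnion_finset T (fun δ _ => measurableSet_classPiece Γ γ δ)
      (fun δ _ δ' _ hne => pairwise_disjoint_classPiece Γ γ hne) fun δ _ => (hpiece δ).1]
  simp only [fun δ => (hpiece δ).2]
  exact hasSum_sum_of_ne_finset_zero fun δ hδ => conjTerm_eq_zero Γ hs fun hm =>
    hδ (by simpa [hT] using hm)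

/-- **All classes.** -/
theorem hasSum_classes {φ : G → ℂ} (hc : Continuous φ) (hs : HasCompactSupport φ)
    (r : ConjClasses Γ → Γ) (hr : ∀ C, ConjClasses.mk (r C) = C) (E : ConjClasses Γ → Set G)
    (hE : ∀ C, IsFundamentalDomain (centralizerIn Γ (r C)).op (E C) (haar : Measure G)) :
    {C | ∫ u in E C, φ (u * r C * u⁻¹) ∂(haar : Measure G) ≠ 0}.Finite ∧
      HasSum (fun C => ∫ u in E C, φ (u * r C * u⁻¹) ∂(haar : Measure G))
        (∫ s in domain Γ, periodise Γ φ s s ∂(haar : Measure G)) := by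
  have hterm : ∀ C, HasSum (fun δ : {δ : Γ // ConjClasses.mk δ = C} => conjTerm Γ φ δ)
      (∫ u in E C, φ (u * r C * u⁻¹) ∂(haar : Measure G)) := fun C => by
    have h := (setIntegral_centralizer Γ hc hs (r C) (hE C)).2
    rw [hr C] at h
    exact h
  refine ⟨((finite_conjTerm_ne Γ hs).image ConjClasses.mk).subset fun C hC => ?_,
    ((Equiv.sigmaFiberEquiv (ConjClasses.mk : Γ → ConjClasses Γ)).hasSum_iff.2
      (hasSum_conjTerm Γ hc hs)).sigma hterm⟩
  by_contra hne
  have h0 : ∀ δ : {δ : Γ // ConjClasses.mk δ = C}, conjTerm Γ φ δ = 0 := fun δ => by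
    by_contra h
    exact hne ⟨δ, h, δ.2⟩
  exact hC ((hterm C).unique (by simp only [h0]; exact hasSum_zero))

/-- The identity contributes the volume times the value at `1`. -/
theorem setIntegral_identity (φ : G → ℂ) :
    IsFundamentalDomain (centralizerIn Γ 1).op (domain Γ) (haar : Measure G) ∧
      ∫ u in domain Γ, φ (u * ((1 : Γ) : G) * u⁻¹) ∂(haar : Measure G) =
        (quotMeasure Γ).real univ * φ 1 := by
  haveI := isMulRightInvariant_of_cocompact Γ
  refine ⟨?_, ?_⟩
  · rw [centralizerIn_one]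
    have h := isFundamentalDomain_domain Γ (1 : G)
    rwa [show ((1 : G) * ·) ⁻¹' domain Γ = domain Γ by simp] at h
  · simp only [Subgroup.coe_one, mul_one, mul_inv_cancel, setIntegral_const, measureReal_def,
      quotMeasure_apply Γ MeasurableSet.univ, preimage_univ, univ_inter]
    exact Complex.real_smul

end FA.TraceFormula

end
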