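import Fermat.Agent.TraceFormula.Kernel
import Mathlib.Analysis.InnerProductSpace.l2Space
import Mathlib.Topology.UniformSpace.Dini

/-!
# The Hilbert and Schmidt norm of a kernel operator

For an operator between Hilbert spaces the sum of the squared norms of the images of a Hilbert
basis equals the same sum for the adjoint, so it does not depend on the basis.  For the average
against `f` it is the integral of the squared norms of the rows of the kernel.
-/

set_option autoImplicit false
set_option linter.unusedSectionVars false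
set_option linter.style.haveILetI false

noncomputable section

open MeasureTheory MeasureTheory.Measure Topology Set Filter Function
open scoped ComplexConjugate InnerProductSpace

namespace FA.TraceFormula

section Hilbert

variable {E F : Type*} [NormedAddCommGroup E] [InnerProductSpace ℂ E] [CompleteSpace E]
  [NormedAddCommGroup F] [InnerProductSpace ℂ F] [CompleteSpace F] {ι κ : Type*}

/-- Parseval's identity. -/
theorem hasSum_norm_sq_inner (e : HilbertBasis ι ℂ E) (x : E) :
    HasSum (fun i => ‖⟪x, e i⟫_ℂ‖ ^ 2) (‖x‖ ^ 2) := by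
  have h := Complex.hasSum_re (e.hasSum_inner_mul_inner x x)
  rw [inner_self_eq_norm_sq_to_K] at h
  have e1 : ((‖x‖ : ℂ) ^ 2).re = ‖x‖ ^ 2 := by rw [← Complex.ofReal_pow, Complex.ofReal_re]
  refine (e1 ▸ h : HasSum _ (‖x‖ ^ 2)).congr_fun fun i => ?_
  rw [← inner_conj_symm (e i) x, Complex.mul_conj, Complex.ofReal_re, Complex.normSq_eq_norm_sq]

/-- An operator and its adjoint have the same sum of squared norms on Hilbert bases. -/
theorem hasSum_norm_sq_adjoint (e : HilbertBasis ι ℂ E) (d : HilbertBasis κ ℂ F)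
    (T : E →L[ℂ] F) {c : ℝ} (h : HasSum (fun i => ‖T (e i)‖ ^ 2) c) :
    HasSum (fun j => ‖ContinuousLinearMap.adjoint T (d j)‖ ^ 2) c := by
  set p : ι × κ → ℝ := fun q => ‖⟪T (e q.1), d q.2⟫_ℂ‖ ^ 2 with hp
  have hrow : ∀ i, HasSum (fun j => p (i, j)) (‖T (e i)‖ ^ 2) := fun i =>
    hasSum_norm_sq_inner d (T (e i))
  have hcol : ∀ j, HasSum (fun i => p (i, j)) (‖ContinuousLinearMap.adjoint T (d j)‖ ^ 2) :=
    fun j => (hasSum_norm_sq_inner e _).congr_fun fun i => by
      rw [hp]
      simp only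
      rw [ContinuousLinearMap.adjoint_inner_left, ← inner_conj_symm, Complex.norm_conj]
  have hs : Summable p := (summable_prod_of_nonneg fun q => sq_nonneg _).2
    ⟨fun i => (hrow i).summable, h.summable.congr fun i => (hrow i).tsum_eq.symm⟩
  have hc : HasSum p c := by
    rw [← (hs.hasSum.prod_fiberwise hrow).unique h]
    exact hs.hasSum
  exact ((Equiv.prodComm κ ι).hasSum_iff.2 hc).prod_fiberwise hcol

/-- The sum of squared norms does not depend on the basis. -/
theorem hasSum_norm_sq_basis (e : HilbertBasis ι ℂ E) (e' : HilbertBasis κ ℂ E)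
    (T : E →L[ℂ] F) {c : ℝ} (h : HasSum (fun i => ‖T (e i)‖ ^ 2) c) :
    HasSum (fun j => ‖T (e' j)‖ ^ 2) c := by
  obtain ⟨w, d, -⟩ := exists_hilbertBasis ℂ F
  have h' := hasSum_norm_sq_adjoint d e' _ (hasSum_norm_sq_adjoint e d T h)
  rwa [ContinuousLinearMap.adjoint_adjoint] at h'

end Hilbert

open FA.CompactQuotient

variable {G : Type*} [Group G] [TopologicalSpace G] [IsTopologicalGroup G] [T2Space G]
  [LocallyCompactSpace G] (Γ : Subgroup G) [DiscreteTopology Γ] [CompactSpace (G ⧸ Γ)]
  [MeasurableSpace G] [BorelSpace G] [Countable Γ]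

/-- **Averaged translations are Hilbert and Schmidt operators.** -/
theorem hasSum_norm_sq_kernel {f : G → ℂ} (hf : Continuous f) (hfs : HasCompactSupport f)
    (b : QuotL2 Γ →L[ℂ] QuotL2 Γ)
    (hb : ∀ v, b v = ∫ g, f g • quasiRegular Γ g⁻¹ v ∂(haar : Measure G)) {ι : Type*}
    (e : HilbertBasis ι ℂ (QuotL2 Γ)) :
    HasSum (fun i => ‖b (e i)‖ ^ 2) (∫ x, ‖kerVec Γ hf hfs x‖ ^ 2 ∂quotMeasure Γ) := by
  obtain ⟨L, hL, hbL⟩ := exists_kernel_op Γ hf hfs b hb
  set P : Finset ι → G ⧸ Γ → ℝ := fun s x => ∑ i ∈ s, ‖L (e i) x‖ ^ 2 with hP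
  have hint : ∀ φ : G ⧸ Γ → ℝ, Continuous φ → Integrable φ (quotMeasure Γ) := fun φ hφ =>
    hφ.integrable_of_hasCompactSupport (HasCompactSupport.of_compactSpace _)
  have hPc : ∀ s, Continuous (P s) := fun s =>
    continuous_finsetSum _ fun i _ => (L (e i)).continuous.norm.pow 2
  have hfc : Continuous fun x => ‖kerVec Γ hf hfs x‖ ^ 2 := (kerVec Γ hf hfs).continuous.norm.pow 2
  have hpar : ∀ x, HasSum (fun i => ‖L (e i) x‖ ^ 2) (‖kerVec Γ hf hfs x‖ ^ 2) := fun x => by
    simpa only [hL] using hasSum_norm_sq_inner e (kerVec Γ hf hfs x)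
  have hu : TendstoUniformly P (fun x => ‖kerVec Γ hf hfs x‖ ^ 2) atTop :=
    Monotone.tendstoUniformly_of_forall_tendsto hPc
      (fun s t hst x => Finset.sum_le_sum_of_subset_of_nonneg hst fun i _ _ => sq_nonneg _) hfc
      hpar
  have hsum : ∀ s : Finset ι, ∑ i ∈ s, ‖b (e i)‖ ^ 2 = ∫ x, P s x ∂quotMeasure Γ := fun s => by
    simp only [hP, hbL, norm_embL2_sq]
    exact (integral_finsetSum _ fun i _ => hint _ ((L (e i)).continuous.norm.pow 2)).symm
  show Tendsto _ atTop _
  simp only [hsum]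
  refine Metric.tendsto_nhds.2 fun ε hε => ?_
  set M := (quotMeasure Γ).real univ + 1 with hM
  have hM0 : 0 < M := by positivity
  filter_upwards [Metric.tendstoUniformly_iff.1 hu (ε / M) (by positivity)] with s hs
  rw [dist_eq_norm, ← integral_sub (hint _ (hPc s)) (hint _ hfc)]
  refine (norm_integral_le_of_norm_le_const (C := ε / M)
    (.of_forall fun x => ?_)).trans_lt ?_
  · rw [← dist_eq_norm, dist_comm]
    exact (hs x).le
  · rw [div_mul_eq_mul_div, div_lt_iff₀ hM0]
    exact mul_lt_mul_of_pos_left (lt_add_one _) hε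

end FA.TraceFormula

end
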