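import Fermat.Agent.TraceFormula.Kernel

/-!
# The test function `f* ⋆ f`

For `a = π(f)` the product `star a * a` is `π(F)` with `F z = ∫ conj (f g) f (g z)`, and the squared
norm of a row of the kernel of `star a` is the periodisation of `F` on the diagonal.
-/

set_option autoImplicit false
set_option linter.unusedSectionVars false
set_option linter.style.haveILetI false

noncomputable section

open MeasureTheory MeasureTheory.Measure Topology Set Filter Function
open scoped ComplexConjugate InnerProductSpace Pointwise

namespace FA.TraceFormula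

open FA.CompactQuotient

variable {G : Type*} [Group G] [TopologicalSpace G] [IsTopologicalGroup G] [T2Space G]
  [LocallyCompactSpace G] [MeasurableSpace G] [BorelSpace G]

/-- The convolution of `f*` and `f`. -/
def testFun (f : G → ℂ) (z : G) : ℂ := ∫ g, conj (f g) * f (g * z) ∂(haar : Measure G)

theorem continuous_testFun {f : G → ℂ} (hf : Continuous f) (hfs : HasCompactSupport f) :
    Continuous (testFun f) := by
  refine continuousOn_univ.1 (continuousOn_integral_of_compact_support (k := tsupport f) hfs
    (Continuous.continuousOn ?_) fun z g _ hg => ?_)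
  · exact ((Complex.continuous_conj.comp hf).comp continuous_snd).mul
      (hf.comp (continuous_snd.mul continuous_fst))
  · rw [image_eq_zero_of_notMem_tsupport hg, map_zero, zero_mul]

theorem hasCompactSupport_testFun {f : G → ℂ} (hfs : HasCompactSupport f) :
    HasCompactSupport (testFun f) := by
  refine HasCompactSupport.intro ((hfs : IsCompact (tsupport f)).inv.mul hfs) fun z hz => ?_
  refine integral_eq_zero_of_ae (.of_forall fun g => ?_)
  by_cases h1 : g ∈ tsupport f
  · by_cases h2 : g * z ∈ tsupport f
    · exact absurd ⟨g⁻¹, Set.inv_mem_inv.2 h1, g * z, h2, inv_mul_cancel_left g z⟩ hz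
    · show conj (f g) * f (g * z) = 0
      rw [image_eq_zero_of_notMem_tsupport h2, mul_zero]
  · show conj (f g) * f (g * z) = 0
    rw [image_eq_zero_of_notMem_tsupport h1, map_zero, zero_mul]

theorem testFun_one (f : G → ℂ) :
    testFun f 1 = ((∫ g, ‖f g‖ ^ 2 ∂(haar : Measure G) : ℝ) : ℂ) := by
  rw [testFun, ← integral_complex_ofReal]
  simp [← Complex.normSq_eq_conj_mul_self, Complex.normSq_eq_norm_sq]

/-- **The product `star a * a` is the average against the test function.** -/
theorem star_mul_self_eq {H : Type*} [NormedAddCommGroup H] [InnerProductSpace ℂ H]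
    [CompleteSpace H] (U : G →* (H →L[ℂ] H)) (hU : ∀ v, Continuous fun g => U g v) {f : G → ℂ}
    (hf : Continuous f) (hfs : HasCompactSupport f) (a : H →L[ℂ] H)
    (ha : ∀ v, a v = ∫ g, f g • U g v ∂(haar : Measure G))
    (hast : ∀ v, star a v = ∫ g, conj (f g) • U g⁻¹ v ∂(haar : Measure G)) (v : H) :
    (star a * a) v = ∫ z, testFun f z • U z v ∂(haar : Measure G) := by
  rw [mul_apply_eq_comp, hast]
  have hint : Integrable (fun g => f g • U g v) (haar : Measure G) :=
    FA.GelfandRaikov.integrable_smul_orbit _ hf hfs (hU v)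
  have e : ∀ g : G, conj (f g) • U g⁻¹ (a v) =
      ∫ z, (conj (f g) * f (g * z)) • U z v ∂(haar : Measure G) := fun g => by
    rw [ha, ← (U g⁻¹).integral_comp_comm hint, ← integral_smul,
      ← integral_mul_left_eq_self (fun h => conj (f g) • U g⁻¹ (f h • U h v)) g]
    refine integral_congr_ae (.of_forall fun z => ?_)
    simp only [map_smul, smul_smul, ← mul_apply_eq_comp, ← map_mul, inv_mul_cancel_left]
  simp only [e]
  rw [integral_integral_swap_of_hasCompactSupport]
  · refine integral_congr_ae (.of_forall fun z => ?_)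
    exact integral_smul_const _ _
  · exact (((Complex.continuous_conj.comp hf).comp continuous_fst).mul
      (hf.comp (continuous_fst.mul continuous_snd))).smul ((hU v).comp continuous_snd)
  · refine HasCompactSupport.intro ((hfs : IsCompact (tsupport f)).prod
      ((hfs : IsCompact (tsupport f)).inv.mul hfs)) fun p hp => ?_
    show (conj (f p.1) * f (p.1 * p.2)) • U p.2 v = 0
    by_cases h1 : p.1 ∈ tsupport f
    · by_cases h2 : p.1 * p.2 ∈ tsupport f
      · exact absurd ⟨h1, p.1⁻¹, Set.inv_mem_inv.2 h1, p.1 * p.2, h2,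
          inv_mul_cancel_left p.1 p.2⟩ hp
      · rw [image_eq_zero_of_notMem_tsupport h2, mul_zero, zero_smul]
    · rw [image_eq_zero_of_notMem_tsupport h1, map_zero, zero_mul, zero_smul]

variable (Γ : Subgroup G) [DiscreteTopology Γ] [CompactSpace (G ⧸ Γ)] [Countable Γ]

/-- The periodised test function on the diagonal of the quotient. -/
def diagonal {f : G → ℂ} (hf : Continuous f) (hfs : HasCompactSupport f) : C(G ⧸ Γ, ℂ) :=
  ⟨fun x => kernelFun Γ (continuous_testFun hf hfs) (hasCompactSupport_testFun hfs) (x, x),
    by fun_prop⟩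

theorem diagonal_mk {f : G → ℂ} (hf : Continuous f) (hfs : HasCompactSupport f) (s : G) :
    diagonal Γ hf hfs (QuotientGroup.mk s) = periodise Γ (testFun f) s s := rfl

/-- **The rows of the kernel.** The squared norm of a row is the periodised test function on the
diagonal. -/
theorem norm_sq_kerVec {f : G → ℂ} (hf : Continuous f) (hfs : HasCompactSupport f) (x : G ⧸ Γ) :
    ((‖kerVec Γ (f := fun g => conj (f g)) (Complex.continuous_conj.comp hf)
        (hfs.comp_left (map_zero _)) x‖ ^ 2 : ℝ) : ℂ) = diagonal Γ hf hfs x := by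
  haveI := isMulRightInvariant_of_cocompact Γ
  induction x using QuotientGroup.induction_on with
  | _ s =>
  set f' : G → ℂ := fun g => conj (f g) with hf'
  have hf'c : Continuous f' := Complex.continuous_conj.comp hf
  have hf's : HasCompactSupport f' := hfs.comp_left (map_zero _)
  let K : C(G ⧸ Γ, ℂ) := ⟨fun y => kernelFun Γ hf'c hf's (QuotientGroup.mk s, y), by fun_prop⟩
  let P : C(G ⧸ Γ, ℂ) := ⟨fun y => ((‖K y‖ ^ 2 : ℝ) : ℂ), by fun_prop⟩
  have e1 : ((‖kerVec Γ hf'c hf's (QuotientGroup.mk s : G ⧸ Γ)‖ ^ 2 : ℝ) : ℂ) =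
      ∫ u in domain Γ, P (QuotientGroup.mk u) ∂(haar : Measure G) := by
    rw [← integral_quotMeasure Γ P, kerVec, ContinuousMap.coe_mk, norm_embL2_sq,
      ← integral_complex_ofReal]
    refine integral_congr_ae (.of_forall fun y => ?_)
    show ((‖conj (kernelFun Γ hf'c hf's (QuotientGroup.mk s, y))‖ ^ 2 : ℝ) : ℂ) = P y
    rw [Complex.norm_conj]
    rfl
  set h : G → ℂ := fun v => f (v * s⁻¹) * K (QuotientGroup.mk v) with hh
  have hc : Continuous h :=
    (hf.comp (continuous_id.mul continuous_const)).mul (K.continuous.comp (continuous_mk Γ))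
  have hcs : HasCompactSupport h := (hfs.comp_homeomorph (Homeomorph.mulRight s⁻¹)).mul_right
  have e2 : ∀ u, P (QuotientGroup.mk u) = periodise Γ h 1 u := fun u => by
    rw [hh, periodise_mul_comp]
    show ((‖periodise Γ f' s u‖ ^ 2 : ℝ) : ℂ) = periodise Γ f s u * periodise Γ f' s u
    have hfin : (Function.support fun γ : Γ => f (u * γ * s⁻¹)).Finite :=
      (finite_meeting Γ hfs (isCompact_singleton (x := u)) (isCompact_singleton (x := s))).subset
        fun γ hγ => mem_of_apply_ne Γ (mem_singleton u) (mem_singleton s) hγ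
    have e3 : periodise Γ f' s u = conj (periodise Γ f s u) :=
      (map_finsum (starRingEnd ℂ) hfin).symm
    rw [e3, Complex.norm_conj, Complex.mul_conj, Complex.normSq_eq_norm_sq]
  simp only [e2] at e1
  rw [← integral_eq_domain Γ hc hcs, ← integral_mul_right_eq_self h s] at e1
  rw [e1, diagonal_mk]
  -- expand the kernel on the support of `f`
  set F := (finite_meeting Γ hf's ((hfs : IsCompact (tsupport f)).mul
    (isCompact_singleton (x := s))) (isCompact_singleton (x := s))).toFinset with hF
  have e4 : ∀ g, h (g * s) = ∑ γ ∈ F, f g * conj (f (g * (s * γ * s⁻¹))) := fun g => by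
    rw [hh, ← Finset.mul_sum]
    simp only [mul_inv_cancel_right]
    by_cases hg : g ∈ tsupport f
    · rw [show K (QuotientGroup.mk (g * s)) = periodise Γ f' s (g * s) from rfl,
        periodise_eq_sum Γ hf's ((hfs : IsCompact (tsupport f)).mul
          (isCompact_singleton (x := s))) (isCompact_singleton (x := s))
          (mul_mem_mul hg (mem_singleton s)) (mem_singleton s), hF]
      simp only [hf', mul_assoc]
    · rw [image_eq_zero_of_notMem_tsupport hg, zero_mul, zero_mul]
  have hi : ∀ γ : Γ, Integrable (fun g => f g * conj (f (g * (s * γ * s⁻¹)))) (haar : Measure G) :=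
    fun γ => (hf.mul (Complex.continuous_conj.comp (hf.comp (continuous_id.mul
      continuous_const)))).integrable_of_hasCompactSupport hfs.mul_right
  have e5 : ∀ γ : Γ, ∫ g, f g * conj (f (g * (s * γ * s⁻¹))) ∂(haar : Measure G) =
      conj (testFun f (s * γ * s⁻¹)) := fun γ => by
    rw [testFun, ← integral_conj]
    simp only [map_mul, Complex.conj_conj]
  simp only [e4]
  rw [integral_finsetSum _ fun γ _ => hi γ]
  simp only [e5]
  rw [← _root_.map_sum]
  have hsub : (Function.support fun γ : Γ => testFun f (s * γ * s⁻¹)) ⊆ F := fun γ hγ => by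
    by_contra hγF
    refine hγ (integral_eq_zero_of_ae (.of_forall fun g => ?_))
    show conj (f g) * f (g * (s * γ * s⁻¹)) = 0
    by_cases hg : g ∈ tsupport f
    · by_contra hne
      refine hγF ((Set.Finite.mem_toFinset _).2 (mem_of_apply_ne Γ (f := f')
        (mul_mem_mul hg (mem_singleton s)) (mem_singleton s) ?_))
      show conj (f (g * s * γ * s⁻¹)) ≠ 0
      rw [map_ne_zero]
      refine fun h0 => hne ?_
      simp only [mul_assoc] at h0 ⊢
      rw [h0, mul_zero]
    · rw [image_eq_zero_of_notMem_tsupport hg, map_zero, zero_mul]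
  have e6 : periodise Γ (testFun f) s s = ∑ γ ∈ F, testFun f (s * γ * s⁻¹) :=
    finsum_eq_sum_of_support_subset _ hsub
  -- both sides are real, so the conjugation disappears
  have e7 : conj (∑ γ ∈ F, testFun f (s * γ * s⁻¹)) = ∑ γ ∈ F, testFun f (s * γ * s⁻¹) := by
    have h7 : conj ((‖kerVec Γ hf'c hf's (QuotientGroup.mk s : G ⧸ Γ)‖ ^ 2 : ℝ) : ℂ) = _ :=
      Complex.conj_ofReal _
    rw [e1] at h7
    simp only [e4] at h7
    rw [integral_finsetSum _ fun γ _ => hi γ] at h7
    simp only [e5] at h7
    rw [← _root_.map_sum, Complex.conj_conj] at h7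
    exact h7.symm
  rw [e7, e6]

end FA.TraceFormula

end
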