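import Fermat.Agent.GelfandRaikov.Main
import Fermat.Agent.TraceFormula.HilbertSchmidt
import Fermat.Agent.TraceFormula.TestFunction

/-!
# The spectral side

The trace of `π(F)` over a Hilbert basis of `L²` of the quotient is the integral of the periodised
diagonal.  Bases of the summands of an orthogonal decomposition glue to such a basis.
-/

set_option autoImplicit false
set_option linter.unusedSectionVars false
set_option linter.style.haveILetI false

noncomputable section

open MeasureTheory MeasureTheory.Measure Topology Set Filter Function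
open scoped ComplexConjugate InnerProductSpace

namespace FA.TraceFormula

section Glue

variable {H : Type*} [NormedAddCommGroup H] [InnerProductSpace ℂ H] [CompleteSpace H]

/-- Bases of the summands of an orthogonal decomposition form a basis. -/
theorem exists_glued_basis {S : Set (Submodule ℂ H)}
    (hS : S.Pairwise fun W W' => ∀ v ∈ W, ∀ w ∈ W', ⟪v, w⟫_ℂ = 0)
    (hd : Dense ((sSup S : Submodule ℂ H) : Set H)) {ι : S → Type*}
    (e : ∀ W : S, HilbertBasis (ι W) ℂ (W : Submodule ℂ H)) :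
    ∃ b : HilbertBasis (Σ W, ι W) ℂ H, ∀ q, b q = (e q.1 q.2 : H) := by
  classical
  set v : (Σ W, ι W) → H := fun q => (e q.1 q.2 : H) with hv
  have ho : Orthonormal ℂ v := by
    rw [orthonormal_iff_ite]
    rintro ⟨W, i⟩ ⟨W', j⟩
    by_cases h : W = W'
    · subst h
      have h2 := orthonormal_iff_ite.1 (e W).orthonormal i j
      rw [Submodule.coe_inner] at h2
      simpa [hv] using h2
    · rw [if_neg fun h' => h (congrArg Sigma.fst h')]
      exact hS W.2 W'.2 (fun h' => h (Subtype.ext h')) _ (e W i).2 _ (e W' j).2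
  have hle : sSup S ≤ (Submodule.span ℂ (range v)).topologicalClosure := sSup_le fun W hW x hx => by
    have h := ((e ⟨W, hW⟩).hasSum_repr ⟨x, hx⟩).mapL W.subtypeL
    refine mem_closure_of_tendsto h (.of_forall fun s => Submodule.sum_mem _ fun i _ => ?_)
    rw [map_smul]
    exact Submodule.smul_mem _ _ (Submodule.subset_span ⟨⟨⟨W, hW⟩, i⟩, rfl⟩)
  have htop : ⊤ ≤ (Submodule.span ℂ (range v)).topologicalClosure := fun x _ =>
    closure_minimal (s := ((sSup S : Submodule ℂ H) : Set H)) hle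
      (Submodule.isClosed_topologicalClosure _) (hd x)
  exact ⟨HilbertBasis.mk ho htop, fun q => by rw [HilbertBasis.coe_mk]⟩

theorem inner_star_mul_self (a : H →L[ℂ] H) (x : H) :
    ⟪x, (star a * a) x⟫_ℂ = ((‖a x‖ ^ 2 : ℝ) : ℂ) := by
  rw [mul_apply_eq_comp, ContinuousLinearMap.star_eq_adjoint,
    ContinuousLinearMap.adjoint_inner_right, inner_self_eq_norm_sq_to_K]
  simp

end Glue

open FA.CompactQuotient

variable {G : Type*} [Group G] [TopologicalSpace G] [IsTopologicalGroup G] [T2Space G]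
  [LocallyCompactSpace G] (Γ : Subgroup G) [DiscreteTopology Γ] [CompactSpace (G ⧸ Γ)]
  [MeasurableSpace G] [BorelSpace G] [Countable Γ]

/-- `π(F)` at a vector. -/
def averageVec (φ : G → ℂ) (v : QuotL2 Γ) : QuotL2 Γ :=
  ∫ z, φ z • quasiRegular Γ z v ∂(haar : Measure G)

theorem exists_average_op {f : G → ℂ} (hf : Continuous f) (hfs : HasCompactSupport f) :
    ∃ a : QuotL2 Γ →L[ℂ] QuotL2 Γ,
      (∀ v, a v = ∫ g, f g • quasiRegular Γ g v ∂(haar : Measure G)) ∧
      (∀ v, star a v = ∫ g, conj (f g) • quasiRegular Γ g⁻¹ v ∂(haar : Measure G)) ∧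
      ∀ v, averageVec Γ (testFun f) v = (star a * a) v := by
  obtain ⟨a, ha, hast, -⟩ := FA.GelfandRaikov.exists_average (haar : Measure G) (quasiRegular Γ)
    (continuous_quasiRegular Γ) (norm_quasiRegular Γ) f hf hfs
  exact ⟨a, ha, hast, fun v =>
    (star_mul_self_eq (quasiRegular Γ) (continuous_quasiRegular Γ) hf hfs a ha hast v).symm⟩

theorem hasSum_norm_sq_average {f : G → ℂ} (hf : Continuous f) (hfs : HasCompactSupport f)
    (a : QuotL2 Γ →L[ℂ] QuotL2 Γ)
    (hast : ∀ v, star a v = ∫ g, conj (f g) • quasiRegular Γ g⁻¹ v ∂(haar : Measure G)) {ι : Type*}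
    (e : HilbertBasis ι ℂ (QuotL2 Γ)) :
    HasSum (fun i => ((‖a (e i)‖ ^ 2 : ℝ) : ℂ)) (∫ x, diagonal Γ hf hfs x ∂quotMeasure Γ) := by
  have h := hasSum_norm_sq_adjoint e e (star a)
    (hasSum_norm_sq_kernel Γ (f := fun g => conj (f g)) (Complex.continuous_conj.comp hf)
      (hfs.comp_left (map_zero _)) (star a) hast e)
  rw [← ContinuousLinearMap.star_eq_adjoint, star_star] at h
  have h2 := Complex.hasSum_ofReal.2 h
  rw [← integral_complex_ofReal] at h2
  simp only [norm_sq_kerVec Γ hf hfs] at h2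
  exact h2

/-- **The trace.** For every Hilbert basis the trace of `π(F)` is the integral of the periodised
diagonal. -/
theorem hasSum_trace {f : G → ℂ} (hf : Continuous f) (hfs : HasCompactSupport f) {ι : Type*}
    (e : HilbertBasis ι ℂ (QuotL2 Γ)) :
    HasSum (fun i => ⟪e i, averageVec Γ (testFun f) (e i)⟫_ℂ)
      (∫ x, diagonal Γ hf hfs x ∂quotMeasure Γ) := by
  obtain ⟨a, -, hast, hP⟩ := exists_average_op Γ hf hfs
  simpa only [hP, inner_star_mul_self] using hasSum_norm_sq_average Γ hf hfs a hast e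

/-- An invariant closed subspace is kept by `π(F)`. -/
theorem averageVec_mem {φ : G → ℂ} (hc : Continuous φ) (hs : HasCompactSupport φ)
    {W : Submodule ℂ (QuotL2 Γ)} (hW : IsClosed (W : Set (QuotL2 Γ)))
    (hinv : ∀ g, ∀ w ∈ W, quasiRegular Γ g w ∈ W) {w : QuotL2 Γ} (hw : w ∈ W) :
    averageVec Γ φ w ∈ W :=
  FA.GelfandRaikov.integral_mem_submodule hW
    (FA.GelfandRaikov.integrable_smul_orbit _ hc hs (continuous_quasiRegular Γ w))
    fun z => W.smul_mem _ (hinv z w hw)

/-- The trace on one closed subspace does not depend on the basis. -/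
theorem hasSum_trace_basis {f : G → ℂ} (hf : Continuous f) (hfs : HasCompactSupport f)
    {W : Submodule ℂ (QuotL2 Γ)} (hW : IsClosed (W : Set (QuotL2 Γ))) {ι κ : Type*}
    (e : HilbertBasis ι ℂ W) (e' : HilbertBasis κ ℂ W) {c : ℂ}
    (h : HasSum (fun i => ⟪(e i : QuotL2 Γ), averageVec Γ (testFun f) (e i)⟫_ℂ) c) :
    HasSum (fun j => ⟪(e' j : QuotL2 Γ), averageVec Γ (testFun f) (e' j)⟫_ℂ) c := by
  haveI : CompleteSpace W := hW.completeSpace_coe
  obtain ⟨a, -, -, hP⟩ := exists_average_op Γ hf hfs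
  simp only [hP, inner_star_mul_self] at h ⊢
  have h1 : HasSum (fun i => ‖a (e i)‖ ^ 2) c.re := by
    simpa [← Complex.ofReal_pow] using Complex.hasSum_re h
  have h2 := Complex.hasSum_ofReal.2 (hasSum_norm_sq_basis e e' (a.comp W.subtypeL) h1)
  have h3 : c = (c.re : ℂ) := h.unique (Complex.hasSum_ofReal.2 h1)
  rw [h3]
  exact h2

/-- **The spectral side.** The traces on the summands add up to the integral of the periodised
diagonal. -/
theorem hasSum_spectral {f : G → ℂ} (hf : Continuous f) (hfs : HasCompactSupport f)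
    {S : Set (Submodule ℂ (QuotL2 Γ))}
    (hS : S.Pairwise fun W W' => ∀ v ∈ W, ∀ w ∈ W', ⟪v, w⟫_ℂ = 0)
    (hd : Dense ((sSup S : Submodule ℂ (QuotL2 Γ)) : Set (QuotL2 Γ))) {ι : S → Type*}
    (e : ∀ W : S, HilbertBasis (ι W) ℂ (W : Submodule ℂ (QuotL2 Γ))) :
    ∃ t : S → ℂ,
      (∀ W, HasSum (fun i => ⟪(e W i : QuotL2 Γ), averageVec Γ (testFun f) (e W i)⟫_ℂ) (t W)) ∧
      HasSum t (∫ x, diagonal Γ hf hfs x ∂quotMeasure Γ) := by
  obtain ⟨b, hb⟩ := exists_glued_basis hS hd e
  have h := hasSum_trace Γ hf hfs b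
  simp only [hb] at h
  have hW : ∀ W, Summable fun i => ⟪(e W i : QuotL2 Γ), averageVec Γ (testFun f) (e W i)⟫_ℂ :=
    fun W => h.summable.sigma_factor W
  exact ⟨fun W => ∑' i, _, fun W => (hW W).hasSum, h.sigma fun W => (hW W).hasSum⟩

theorem integral_diagonal_eq_domain {f : G → ℂ} (hf : Continuous f) (hfs : HasCompactSupport f) :
    ∫ x, diagonal Γ hf hfs x ∂quotMeasure Γ =
      ∫ s in domain Γ, periodise Γ (testFun f) s s ∂(haar : Measure G) :=
  integral_quotMeasure Γ (diagonal Γ hf hfs)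

/-- If the integral of `f` is not zero, neither is the trace: it is a positive real number. -/
theorem trace_pos {f : G → ℂ} (hf : Continuous f) (hfs : HasCompactSupport f)
    (hne : ∫ g, f g ∂(haar : Measure G) ≠ 0) :
    ∃ r : ℝ, 0 < r ∧ ∫ x, diagonal Γ hf hfs x ∂quotMeasure Γ = r := by
  obtain ⟨a, ha, hast, -⟩ := exists_average_op Γ hf hfs
  obtain ⟨w, e, -⟩ := exists_hilbertBasis ℂ (QuotL2 Γ)
  have h := hasSum_norm_sq_average Γ hf hfs a hast e
  have hr : HasSum (fun i => ‖a (e i)‖ ^ 2) (∫ x, diagonal Γ hf hfs x ∂quotMeasure Γ).re := by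
    simpa [← Complex.ofReal_pow] using Complex.hasSum_re h
  refine ⟨_, ?_, h.unique (Complex.hasSum_ofReal.2 hr)⟩
  refine lt_of_le_of_ne (hr.nonneg fun i => sq_nonneg _) fun h0 => hne ?_
  have hz : ∀ i, a (e i) = 0 := fun i => by
    have := (hasSum_zero_iff_of_nonneg fun i => sq_nonneg ‖a (e i)‖).1 (h0 ▸ hr)
    simpa using congrFun this i
  have hall : ∀ v, a v = 0 := fun v =>
    (((e.hasSum_repr v).mapL a).unique (by simp only [map_smul, hz, smul_zero]; exact hasSum_zero))
  have hone : a (embL2 Γ 1) = (∫ g, f g ∂(haar : Measure G)) • embL2 Γ 1 := by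
    rw [ha, ← integral_smul_const]
    refine integral_congr_ae (.of_forall fun g => ?_)
    show f g • quasiRegular Γ g (embL2 Γ 1) = f g • embL2 Γ 1
    rw [← inv_inv g, quasiRegular_embL2]
    rfl
  rw [hall] at hone
  refine (smul_eq_zero.1 hone.symm).resolve_right fun h1 => quotMeasure_ne_zero Γ ?_
  have h2 := norm_embL2_sq Γ (1 : C(G ⧸ Γ, ℂ))
  rw [h1, norm_zero] at h2
  simp [measureReal_def] at h2
  exact Measure.measure_univ_eq_zero.1
    (((ENNReal.toReal_eq_zero_iff _).1 h2.symm).resolve_right (measure_ne_top _ _))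

end FA.TraceFormula

end
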