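import Fermat.Agent.CompactQuotient.Measure
import Mathlib.MeasureTheory.Group.FundamentalDomain
import Mathlib.Topology.Algebra.Monoid

/-!
# Periodisation and unfolding

For `f` continuous with compact support the finite sums `∑ f (u γ s⁻¹)` over `γ ∈ Γ` form a
continuous kernel on the square of `G ⧸ Γ`, and the integral of `f` over the group is the integral
of its periodisation over a fundamental domain.
-/

set_option autoImplicit false
set_option linter.unusedSectionVars false
set_option linter.style.haveILetI false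

noncomputable section

open MeasureTheory MeasureTheory.Measure Topology Set Filter Function
open scoped Pointwise

namespace FA.TraceFormula

open FA.CompactQuotient

variable {G : Type*} [Group G] [TopologicalSpace G] [IsTopologicalGroup G] [T2Space G]
  [LocallyCompactSpace G] (Γ : Subgroup G) [DiscreteTopology Γ] [CompactSpace (G ⧸ Γ)]

omit [LocallyCompactSpace G] [CompactSpace (G ⧸ Γ)] in
theorem finite_mem_compact {K : Set G} (hK : IsCompact K) : {γ : Γ | (γ : G) ∈ K}.Finite := by
  haveI : IsClosed (Γ : Set G) := Subgroup.isClosed_of_discrete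
  exact ((IsClosed.isClosedEmbedding_subtypeVal ‹_›).isCompact_preimage hK).finite_of_discrete

/-- The periodised kernel. -/
def periodise (f : G → ℂ) (s u : G) : ℂ := ∑ᶠ γ : Γ, f (u * γ * s⁻¹)

theorem mem_of_apply_ne {f : G → ℂ} {U S : Set G} {u s : G} {γ : Γ} (hu : u ∈ U) (hs : s ∈ S)
    (h : f (u * γ * s⁻¹) ≠ 0) : (γ : G) ∈ U⁻¹ * tsupport f * S :=
  ⟨u⁻¹ * (u * γ * s⁻¹), mul_mem_mul (Set.inv_mem_inv.2 hu) (subset_tsupport f h), s, hs, by group⟩

theorem finite_meeting {f : G → ℂ} (hfs : HasCompactSupport f) {U S : Set G} (hU : IsCompact U)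
    (hS : IsCompact S) : {γ : Γ | (γ : G) ∈ U⁻¹ * tsupport f * S}.Finite :=
  finite_mem_compact Γ ((hU.inv.mul hfs).mul hS)

/-- On a compact set the periodised kernel is one finite sum. -/
theorem periodise_eq_sum {f : G → ℂ} (hfs : HasCompactSupport f) {U S : Set G} (hU : IsCompact U)
    (hS : IsCompact S) {u s : G} (hu : u ∈ U) (hs : s ∈ S) :
    periodise Γ f s u = ∑ γ ∈ (finite_meeting Γ hfs hU hS).toFinset, f (u * γ * s⁻¹) :=
  finsum_eq_sum_of_support_subset _ fun γ hγ => by
    rw [Finset.mem_coe, Set.Finite.mem_toFinset]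
    exact mem_of_apply_ne Γ hu hs hγ

theorem continuous_periodise {f : G → ℂ} (hf : Continuous f) (hfs : HasCompactSupport f) :
    Continuous fun p : G × G => periodise Γ f p.1 p.2 := by
  refine continuous_finsum (fun γ => hf.comp ((continuous_snd.mul continuous_const).mul
    continuous_fst.inv)) fun p => ?_
  obtain ⟨S, hS, hSn⟩ := exists_compact_mem_nhds p.1
  obtain ⟨U, hU, hUn⟩ := exists_compact_mem_nhds p.2
  refine ⟨S ×ˢ U, prod_mem_nhds hSn hUn, (finite_meeting Γ hfs hU hS).subset ?_⟩
  rintro γ ⟨q, hq, hqS, hqU⟩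
  exact mem_of_apply_ne Γ hqU hqS hq

theorem periodise_mul_left (f : G → ℂ) (s u : G) (δ : Γ) :
    periodise Γ f s (u * δ) = periodise Γ f s u := by
  rw [periodise, periodise,
    ← finsum_comp_equiv (Equiv.mulLeft δ) (f := fun γ : Γ => f (u * γ * s⁻¹))]
  simp [mul_assoc]

theorem periodise_mul_right (f : G → ℂ) (s u : G) (δ : Γ) :
    periodise Γ f (s * δ) u = periodise Γ f s u := by
  rw [periodise, periodise,
    ← finsum_comp_equiv (Equiv.mulRight δ⁻¹) (f := fun γ : Γ => f (u * γ * s⁻¹))]
  simp [mul_assoc]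

/-- The kernel on the square of the quotient. -/
def kernelFun {f : G → ℂ} (hf : Continuous f) (hfs : HasCompactSupport f) :
    C((G ⧸ Γ) × (G ⧸ Γ), ℂ) where
  toFun p := Quotient.liftOn₂' p.1 p.2 (periodise Γ f) fun s u s' u' hs hu => by
    rw [QuotientGroup.leftRel_apply] at hs hu
    have e1 : s' = s * ((⟨_, hs⟩ : Γ) : G) := (mul_inv_cancel_left s s').symm
    have e2 : u' = u * ((⟨_, hu⟩ : Γ) : G) := (mul_inv_cancel_left u u').symm
    rw [e1, e2, periodise_mul_left, periodise_mul_right]
  continuous_toFun := by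
    rw [← (QuotientGroup.isOpenQuotientMap_mk.prodMap
      QuotientGroup.isOpenQuotientMap_mk).continuous_comp_iff]
    exact continuous_periodise Γ hf hfs

theorem kernelFun_mk {f : G → ℂ} (hf : Continuous f) (hfs : HasCompactSupport f) (s u : G) :
    kernelFun Γ hf hfs (QuotientGroup.mk s, QuotientGroup.mk u) = periodise Γ f s u := rfl

variable [MeasurableSpace G] [BorelSpace G] [Countable Γ]

/-- **Unfolding.** The integral over the group is the integral of the periodisation over the
fundamental domain. -/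
theorem integral_eq_domain {h : G → ℂ} (hh : Continuous h) (hhs : HasCompactSupport h) :
    ∫ g, h g ∂(haar : Measure G) = ∫ u in domain Γ, periodise Γ h 1 u ∂(haar : Measure G) := by
  haveI := isMulRightInvariant_of_cocompact Γ
  have hD := isFundamentalDomain_domain Γ (1 : G)
  rw [show ((1 : G) * ·) ⁻¹' domain Γ = domain Γ by simp] at hD
  set F := (finite_meeting Γ hhs (isCompact_closure_domain Γ)
    (isCompact_singleton (x := (1 : G)))).toFinset with hF
  have hzero : ∀ γ ∉ F, ∀ u ∈ domain Γ, h (u * ((γ : Γ) : G)) = 0 := fun γ hγ u hu => by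
    by_contra hne
    exact hγ ((Set.Finite.mem_toFinset _).2 (mem_of_apply_ne Γ (subset_closure hu)
      (mem_singleton (1 : G)) (by rwa [inv_one, mul_one])))
  have hint : ∀ γ : Γ, IntegrableOn (fun u => h (u * γ)) (domain Γ) (haar : Measure G) := fun γ =>
    ((hh.integrable_of_hasCompactSupport hhs).comp_mul_right (γ : G)).integrableOn
  rw [hD.integral_eq_tsum' h (hh.integrable_of_hasCompactSupport hhs),
    ← ((Equiv.inv Γ).trans (Subgroup.equivOp Γ)).tsum_eq, tsum_eq_sum (s := F) fun γ hγ =>
      setIntegral_eq_zero_of_forall_eq_zero fun u hu => by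
        show h (u * (((γ⁻¹ : Γ)⁻¹ : Γ) : G)) = 0
        rw [inv_inv]
        exact hzero γ hγ u hu]
  rw [setIntegral_congr_fun (g := fun u => ∑ γ ∈ F, h (u * γ)) (measurableSet_domain Γ)
      fun u hu => ?_, integral_finsetSum _ fun γ _ => hint γ]
  · refine Finset.sum_congr rfl fun γ _ => setIntegral_congr_fun (measurableSet_domain Γ)
      fun u _ => ?_
    show h (u * (((γ⁻¹ : Γ)⁻¹ : Γ) : G)) = h (u * (γ : G))
    rw [inv_inv]
  · rw [periodise_eq_sum Γ hhs (isCompact_closure_domain Γ) (isCompact_singleton (x := (1 : G)))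
      (subset_closure hu) (mem_singleton 1)]
    simp [hF]

end FA.TraceFormula

end
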