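import Fermat.Agent.CompactQuotient.Compactness
import Fermat.Agent.TraceFormula.Unfolding

/-!
# Averaged translations are integral operators with continuous kernels

On the compact quotient the average of the inverse translations against `f` sends `φ` to the
function whose value at the class of `s` is the inner product of the conjugate periodised kernel
with `φ`.
-/

set_option autoImplicit false
set_option linter.unusedSectionVars false
set_option linter.style.haveILetI false

noncomputable section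

open MeasureTheory MeasureTheory.Measure Topology Set Filter Function
open scoped ComplexConjugate InnerProductSpace Pointwise

namespace FA.TraceFormula

open FA.CompactQuotient

variable {G : Type*} [Group G] [TopologicalSpace G] [IsTopologicalGroup G] [T2Space G]
  [LocallyCompactSpace G] (Γ : Subgroup G) [DiscreteTopology Γ] [CompactSpace (G ⧸ Γ)]
  [MeasurableSpace G] [BorelSpace G] [Countable Γ]

theorem integral_quotMeasure {E : Type*} [NormedAddCommGroup E] [NormedSpace ℝ E]
    (φ : C(G ⧸ Γ, E)) :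
    ∫ x, φ x ∂quotMeasure Γ =
      ∫ u in domain Γ, φ (QuotientGroup.mk u) ∂(haar : Measure G) :=
  integral_map (measurable_mk Γ).aemeasurable
    (φ.continuous.aestronglyMeasurable_of_compactSpace)

theorem periodise_mul_comp (f : G → ℂ) (φ : G ⧸ Γ → ℂ) (s u : G) :
    periodise Γ (fun v => f (v * s⁻¹) * φ (QuotientGroup.mk v)) 1 u =
      periodise Γ f s u * φ (QuotientGroup.mk u) := by
  rw [periodise, periodise, finsum_mul]
  refine finsum_congr fun γ => ?_
  rw [inv_one, mul_one, QuotientGroup.mk_mul_of_mem u γ.2]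

/-- The average against inverses is given by the periodised kernel. -/
theorem avgFun_eq_kernel {f : G → ℂ} (hf : Continuous f) (hfs : HasCompactSupport f)
    (φ : C(G ⧸ Γ, ℂ)) (x : G ⧸ Γ) :
    avgFun Γ f φ x = ∫ y, kernelFun Γ hf hfs (x, y) * φ y ∂quotMeasure Γ := by
  haveI := isMulRightInvariant_of_cocompact Γ
  induction x using QuotientGroup.induction_on with
  | _ s =>
  set h : G → ℂ := fun v => f (v * s⁻¹) * φ (QuotientGroup.mk v) with hh
  have hc : Continuous h :=
    (hf.comp (continuous_id.mul continuous_const)).mul (φ.continuous.comp (continuous_mk Γ))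
  have hcs : HasCompactSupport h :=
    (hfs.comp_homeomorph (Homeomorph.mulRight s⁻¹)).mul_right
  rw [avgFun_apply Γ hf hfs]
  have e : ∫ g, f g • φ (g • (QuotientGroup.mk s : G ⧸ Γ)) ∂(haar : Measure G) =
      ∫ v, h v ∂(haar : Measure G) := by
    rw [← integral_mul_right_eq_self h s]
    refine integral_congr_ae (.of_forall fun g => ?_)
    show f g • φ (QuotientGroup.mk (g * s)) = f (g * s * s⁻¹) * φ (QuotientGroup.mk (g * s))
    rw [mul_inv_cancel_right, smul_eq_mul]
  let K : C(G ⧸ Γ, ℂ) := ⟨fun y => kernelFun Γ hf hfs (QuotientGroup.mk s, y) * φ y, by fun_prop⟩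
  rw [e, integral_eq_domain Γ hc hcs,
    show (∫ y, kernelFun Γ hf hfs (QuotientGroup.mk s, y) * φ y ∂quotMeasure Γ) =
      ∫ y, K y ∂quotMeasure Γ from rfl, integral_quotMeasure Γ K]
  refine setIntegral_congr_fun (measurableSet_domain Γ) fun u _ => ?_
  rw [hh, periodise_mul_comp]
  rfl

/-- The conjugate kernel. -/
def conjKernel {f : G → ℂ} (hf : Continuous f) (hfs : HasCompactSupport f) :
    C(G ⧸ Γ, C(G ⧸ Γ, ℂ)) :=
  ContinuousMap.curry ⟨fun p => conj (kernelFun Γ hf hfs p),
    Complex.continuous_conj.comp (kernelFun Γ hf hfs).continuous⟩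

/-- The rows of the kernel as elements of `L²`. -/
def kerVec {f : G → ℂ} (hf : Continuous f) (hfs : HasCompactSupport f) :
    C(G ⧸ Γ, QuotL2 Γ) :=
  ⟨fun x => embL2 Γ (conjKernel Γ hf hfs x),
    (embL2 Γ).continuous.comp (conjKernel Γ hf hfs).continuous⟩

theorem inner_embL2 (φ ψ : C(G ⧸ Γ, ℂ)) :
    ⟪embL2 Γ φ, embL2 Γ ψ⟫_ℂ = ∫ y, conj (φ y) * ψ y ∂quotMeasure Γ := by
  rw [ContinuousMap.inner_toLp]
  simp only [mul_comm]

theorem norm_embL2_sq (φ : C(G ⧸ Γ, ℂ)) :
    ‖embL2 Γ φ‖ ^ 2 = ∫ y, ‖φ y‖ ^ 2 ∂quotMeasure Γ := by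
  have h := inner_embL2 Γ φ φ
  rw [inner_self_eq_norm_sq_to_K] at h
  simp only [← Complex.normSq_eq_conj_mul_self, Complex.normSq_eq_norm_sq,
    integral_complex_ofReal] at h
  refine Complex.ofReal_injective ?_
  rw [Complex.ofReal_pow]
  exact h

theorem inner_kerVec {f : G → ℂ} (hf : Continuous f) (hfs : HasCompactSupport f)
    (φ : C(G ⧸ Γ, ℂ)) (x : G ⧸ Γ) :
    ⟪kerVec Γ hf hfs x, embL2 Γ φ⟫_ℂ = avgFun Γ f φ x := by
  rw [avgFun_eq_kernel Γ hf hfs]
  refine (inner_embL2 Γ _ φ).trans (integral_congr_ae (.of_forall fun y => ?_))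
  show conj (conj (kernelFun Γ hf hfs (x, y))) * φ y = _
  rw [Complex.conj_conj]

/-- **The average against inverses is an integral operator.** -/
theorem exists_kernel_op {f : G → ℂ} (hf : Continuous f) (hfs : HasCompactSupport f)
    (b : QuotL2 Γ →L[ℂ] QuotL2 Γ)
    (hb : ∀ v, b v = ∫ g, f g • quasiRegular Γ g⁻¹ v ∂(haar : Measure G)) :
    ∃ L : QuotL2 Γ →L[ℂ] C(G ⧸ Γ, ℂ),
      (∀ v x, L v x = ⟪kerVec Γ hf hfs x, v⟫_ℂ) ∧ ∀ v, b v = embL2 Γ (L v) := by
  let toC : QuotL2 Γ → C(G ⧸ Γ, ℂ) := fun v =>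
    ⟨fun x => ⟪kerVec Γ hf hfs x, v⟫_ℂ, (kerVec Γ hf hfs).continuous.inner continuous_const⟩
  obtain ⟨C, hC⟩ : ∃ C, ∀ x, ‖kerVec Γ hf hfs x‖ ≤ C :=
    ⟨_, fun x => ContinuousMap.norm_coe_le_norm (kerVec Γ hf hfs) x⟩
  let L : QuotL2 Γ →L[ℂ] C(G ⧸ Γ, ℂ) := LinearMap.mkContinuous
    { toFun := toC
      map_add' := fun v w => ContinuousMap.ext fun x => by simp [toC, inner_add_right]
      map_smul' := fun c v => ContinuousMap.ext fun x => by
        simp [toC, inner_smul_right] } (max C 0)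
    fun v => (ContinuousMap.norm_le _ (by positivity)).2 fun x =>
      (norm_inner_le_norm (𝕜 := ℂ) _ _).trans
        (mul_le_mul_of_nonneg_right ((hC x).trans (le_max_left _ _)) (norm_nonneg _))
  refine ⟨L, fun v x => rfl, fun v => ?_⟩
  have hd : DenseRange (embL2 Γ) :=
    ContinuousMap.toLp_denseRange ℂ (quotMeasure Γ) ℂ ENNReal.ofNat_ne_top
  refine congrFun (hd.equalizer (h := fun v => embL2 Γ (L v)) b.continuous
    ((embL2 Γ).continuous.comp L.continuous) (funext fun φ => ?_)) v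
  show b (embL2 Γ φ) = embL2 Γ (L (embL2 Γ φ))
  have e : L (embL2 Γ φ) = avgFun Γ f φ := ContinuousMap.ext fun x => inner_kerVec Γ hf hfs φ x
  rw [e, hb, avgFun, ← (embL2 Γ).integral_comp_comm (integrable_avgFun Γ hf hfs φ)]
  simp only [quasiRegular_embL2, map_smul]

end FA.TraceFormula

end
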